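/-
S55 / FORMAL-CHI2 (helper175) : counting in a ten term exact sequence of abelian groups
(Mathlib only).
-/
import Mathlib

set_option autoImplicit false

namespace Fermat.Agent.S55.Chi2

section basic

variable {X Y Z : Type*} [AddCommGroup X] [AddCommGroup Y] [AddCommGroup Z]

theorem card_eq_of_exact (f : X →+ Y) (g : Y →+ Z) (h : Function.Exact f g) :
    Nat.card Y = Nat.card f.range * Nat.card g.range := by
  have hker : g.ker = f.range := by
    ext y
    rw [AddMonoidHom.mem_ker, h y]
    rfl
  rw [← AddSubgroup.card_mul_index g.ker, AddSubgroup.index_ker, hker]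

theorem card_range_pos [Finite X] (f : X →+ Y) : 0 < Nat.card f.range := by
  have : Finite f.range := Set.finite_range f
  exact Nat.card_pos

theorem card_range_pos' [Finite Y] (f : X →+ Y) : 0 < Nat.card f.range := Nat.card_pos

theorem finite_of_exact [Finite X] [Finite Z] (f : X →+ Y) (g : Y →+ Z)
    (h : Function.Exact f g) : Finite Y := by
  apply Nat.finite_of_card_ne_zero
  rw [card_eq_of_exact f g h]
  exact (Nat.mul_pos (card_range_pos f) (card_range_pos' g)).ne'

theorem card_eq_of_injective (f : X →+ Y) (h : Function.Injective f) :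
    Nat.card X = Nat.card f.range :=
  Nat.card_congr (Equiv.ofInjective f h)

end basic

/-- The multiplicative Euler characteristic of a ten term exact sequence
`0 → A0 → B0 → C0 → A1 → B1 → C1 → A2 → B2 → C2 → A3`. -/
theorem card_ten_term {A0 B0 C0 A1 B1 C1 A2 B2 C2 A3 : Type*}
    [AddCommGroup A0] [AddCommGroup B0] [AddCommGroup C0] [AddCommGroup A1] [AddCommGroup B1]
    [AddCommGroup C1] [AddCommGroup A2] [AddCommGroup B2] [AddCommGroup C2] [AddCommGroup A3]
    (f0 : A0 →+ B0) (g0 : B0 →+ C0) (d0 : C0 →+ A1) (f1 : A1 →+ B1) (g1 : B1 →+ C1)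
    (d1 : C1 →+ A2) (f2 : A2 →+ B2) (g2 : B2 →+ C2) (d2 : C2 →+ A3)
    (hf0 : Function.Injective f0) (e1 : Function.Exact f0 g0) (e2 : Function.Exact g0 d0)
    (e3 : Function.Exact d0 f1) (e4 : Function.Exact f1 g1) (e5 : Function.Exact g1 d1)
    (e6 : Function.Exact d1 f2) (e7 : Function.Exact f2 g2) (e8 : Function.Exact g2 d2) :
    Nat.card B0 * Nat.card B2 * (Nat.card A1 * Nat.card C1) * Nat.card d2.range =
      Nat.card A0 * Nat.card C0 * (Nat.card A2 * Nat.card C2) * Nat.card B1 := by
  rw [card_eq_of_injective f0 hf0, card_eq_of_exact f0 g0 e1, card_eq_of_exact g0 d0 e2,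
    card_eq_of_exact d0 f1 e3, card_eq_of_exact f1 g1 e4, card_eq_of_exact g1 d1 e5,
    card_eq_of_exact d1 f2 e6, card_eq_of_exact f2 g2 e7, card_eq_of_exact g2 d2 e8]
  ring

end Fermat.Agent.S55.Chi2
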