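/-
S55 / FORMAL-CHI2 (helper175) : the partial Euler characteristic `χ₂` of smooth cohomology.
* `step_card`   : multiplicativity up to the defect `|im(δ : H²(C) → H³(A))|`;
* `chain_card`  : a module `V 0` filtered by `m + 1` copies of `P`;
* `chain_injective` : if `χ₂(V 0) = (m + 1) χ₂(P)` then `H³(P) → H³(V 0)` is injective.
-/
import Fermat.Agent.S55.Formal.Chi2.Count
import Fermat.Agent.S55.Coh.LESExact

set_option autoImplicit false

namespace Fermat.Agent.S55.Chi2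

variable {G : Type} [Group G] (𝓝 : LevelSys G)

/-- `H^0`, `H^1`, `H^2` are finite. -/
structure Fin2 (N : Type) [AddCommGroup N] [DistribMulAction G N] : Prop where
  h0 : Finite (Hsm 𝓝 N 0)
  h1 : Finite (Hsm 𝓝 N 1)
  h2 : Finite (Hsm 𝓝 N 2)

/-- `|H^0| * |H^2|`. -/
noncomputable def ev (N : Type) [AddCommGroup N] [DistribMulAction G N] : ℕ :=
  Nat.card (Hsm 𝓝 N 0) * Nat.card (Hsm 𝓝 N 2)

/-- `|H^1|`. -/
noncomputable def od (N : Type) [AddCommGroup N] [DistribMulAction G N] : ℕ :=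
  Nat.card (Hsm 𝓝 N 1)

variable {𝓝}
variable {A : Type} [AddCommGroup A] [DistribMulAction G A]
variable {B : Type} [AddCommGroup B] [DistribMulAction G B]
variable {C : Type} [AddCommGroup C] [DistribMulAction G C]

theorem Fin2.ev_pos (h : Fin2 𝓝 A) : 0 < ev 𝓝 A := by
  have := h.h0
  have := h.h2
  exact Nat.mul_pos Nat.card_pos Nat.card_pos

theorem Fin2.od_pos (h : Fin2 𝓝 A) : 0 < od 𝓝 A := by
  have := h.h1
  exact Nat.card_pos

theorem Fin2.of_bijective {φ : A →+[G] B} (hφ : Function.Bijective φ) (h : Fin2 𝓝 A) :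
    Fin2 𝓝 B :=
  ⟨have := h.h0; Finite.of_equiv _ (Equiv.ofBijective _ (Hsm.map_bijective hφ 0)),
    have := h.h1; Finite.of_equiv _ (Equiv.ofBijective _ (Hsm.map_bijective hφ 1)),
    have := h.h2; Finite.of_equiv _ (Equiv.ofBijective _ (Hsm.map_bijective hφ 2))⟩

theorem ev_eq_of_bijective {φ : A →+[G] B} (hφ : Function.Bijective φ) : ev 𝓝 A = ev 𝓝 B := by
  unfold ev
  rw [Nat.card_congr (Equiv.ofBijective _ (Hsm.map_bijective (𝓝 := 𝓝) hφ 0)),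
    Nat.card_congr (Equiv.ofBijective _ (Hsm.map_bijective (𝓝 := 𝓝) hφ 2))]

theorem od_eq_of_bijective {φ : A →+[G] B} (hφ : Function.Bijective φ) : od 𝓝 A = od 𝓝 B :=
  Nat.card_congr (Equiv.ofBijective _ (Hsm.map_bijective (𝓝 := 𝓝) hφ 1))

theorem step_fin [Smooth 𝓝 B] {φ : A →+[G] B} {ψ : B →+[G] C} (h : ShortExact φ ψ)
    (hA : Fin2 𝓝 A) (hC : Fin2 𝓝 C) : Fin2 𝓝 B :=
  ⟨have := hA.h0; have := hC.h0; finite_of_exact _ _ (Hsm.exact_map_map h 0),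
    have := hA.h1; have := hC.h1; finite_of_exact _ _ (Hsm.exact_map_map h 1),
    have := hA.h2; have := hC.h2; finite_of_exact _ _ (Hsm.exact_map_map h 2)⟩

theorem step_card [Smooth 𝓝 B] {φ : A →+[G] B} {ψ : B →+[G] C} (h : ShortExact φ ψ) :
    ev 𝓝 B * (od 𝓝 A * od 𝓝 C) * Nat.card (Hsm.delta (𝓝 := 𝓝) h 2).range =
      ev 𝓝 A * ev 𝓝 C * od 𝓝 B := by
  have := card_ten_term (Hsm.map (𝓝 := 𝓝) φ 0) (Hsm.map ψ 0) (Hsm.delta h 0)
    (Hsm.map φ 1) (Hsm.map ψ 1) (Hsm.delta h 1) (Hsm.map φ 2) (Hsm.map ψ 2) (Hsm.delta h 2)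
    (Hsm.map_injective_zero h.inj) (Hsm.exact_map_map h 0) (Hsm.exact_map_delta h 0)
    (Hsm.exact_delta_map h 0) (Hsm.exact_map_map h 1) (Hsm.exact_map_delta h 1)
    (Hsm.exact_delta_map h 1) (Hsm.exact_map_map h 2) (Hsm.exact_map_delta h 2)
  unfold ev od
  rw [this]
  ring

/-- If the defect is `1` then `H³(A) → H³(B)` is injective. -/
theorem injective_of_card_range [Smooth 𝓝 B] {φ : A →+[G] B} {ψ : B →+[G] C}
    (h : ShortExact φ ψ) (hr : Nat.card (Hsm.delta (𝓝 := 𝓝) h 2).range = 1) :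
    Function.Injective (Hsm.map (𝓝 := 𝓝) φ 3) := by
  rw [injective_iff_map_eq_zero]
  intro x hx
  obtain ⟨y, rfl⟩ := (Hsm.exact_delta_map h 2 x).1 hx
  have hs : Subsingleton (Hsm.delta (𝓝 := 𝓝) h 2).range := (Nat.card_eq_one_iff_unique.1 hr).1
  have := Subsingleton.elim (⟨_, y, rfl⟩ : (Hsm.delta (𝓝 := 𝓝) h 2).range) 0
  exact congrArg Subtype.val this

section chain

variable {P : Type} [AddCommGroup P] [DistribMulAction G P]

/-- A module `V 0` with a filtration of length `m + 1` whose graded pieces are copies of `P`. -/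
theorem chain_card (hP : Fin2 𝓝 P) (m : ℕ) : ∀ (V : ℕ → Type) [∀ k, AddCommGroup (V k)]
    [∀ k, DistribMulAction G (V k)] [∀ k, Smooth 𝓝 (V k)] (ι : ∀ k, P →+[G] V k)
    (ψ : ∀ k, V k →+[G] V (k + 1)), (∀ k < m, ShortExact (ι k) (ψ k)) →
    Function.Bijective (ι m) →
    Fin2 𝓝 (V 0) ∧ ∃ R : ℕ, 0 < R ∧
      ev 𝓝 (V 0) * od 𝓝 P ^ (m + 1) * R = ev 𝓝 P ^ (m + 1) * od 𝓝 (V 0) := by
  induction m with
  | zero =>
    intro V _ _ _ ι ψ _ hb
    refine ⟨hP.of_bijective hb, 1, one_pos, ?_⟩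
    rw [← ev_eq_of_bijective hb, ← od_eq_of_bijective hb]
    ring
  | succ m ih =>
    intro V _ _ _ ι ψ hses hb
    obtain ⟨hV1, R, hR, hcard⟩ := ih (fun k => V (k + 1)) (fun k => ι (k + 1))
      (fun k => ψ (k + 1)) (fun k hk => hses (k + 1) (Nat.succ_lt_succ hk)) hb
    have h0 := hses 0 (Nat.succ_pos m)
    have hV0 : Fin2 𝓝 (V 0) := step_fin h0 hP hV1
    have hstep := step_card (𝓝 := 𝓝) h0
    have : Finite (Hsm 𝓝 (V (0 + 1)) 2) := hV1.h2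
    refine ⟨hV0, Nat.card (Hsm.delta (𝓝 := 𝓝) h0 2).range * R,
      Nat.mul_pos (card_range_pos _) hR, ?_⟩
    have hpos : 0 < od 𝓝 (V (0 + 1)) := hV1.od_pos
    apply Nat.eq_of_mul_eq_mul_right hpos
    calc ev 𝓝 (V 0) * od 𝓝 P ^ (m + 1 + 1) * (Nat.card (Hsm.delta (𝓝 := 𝓝) h0 2).range * R) *
          od 𝓝 (V (0 + 1))
        = (ev 𝓝 (V 0) * (od 𝓝 P * od 𝓝 (V (0 + 1))) * Nat.card (Hsm.delta (𝓝 := 𝓝) h0 2).range) *
          (od 𝓝 P ^ (m + 1) * R) := by ring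
      _ = ev 𝓝 P * od 𝓝 (V 0) * (ev 𝓝 (V (0 + 1)) * od 𝓝 P ^ (m + 1) * R) := by
          rw [hstep]; ring
      _ = ev 𝓝 P ^ (m + 1 + 1) * od 𝓝 (V 0) * od 𝓝 (V (0 + 1)) := by
          rw [hcard]; ring

/-- If moreover `χ₂(V 0) = (m + 1) χ₂(P)` then `H³(P) → H³(V 0)` is injective. -/
theorem chain_injective (hP : Fin2 𝓝 P) (m : ℕ) (V : ℕ → Type) [∀ k, AddCommGroup (V k)]
    [∀ k, DistribMulAction G (V k)] [∀ k, Smooth 𝓝 (V k)] (ι : ∀ k, P →+[G] V k)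
    (ψ : ∀ k, V k →+[G] V (k + 1)) (hses : ∀ k < m, ShortExact (ι k) (ψ k))
    (hb : Function.Bijective (ι m))
    (hχ : ev 𝓝 (V 0) * od 𝓝 P ^ (m + 1) = ev 𝓝 P ^ (m + 1) * od 𝓝 (V 0)) :
    Function.Injective (Hsm.map (𝓝 := 𝓝) (ι 0) 3) := by
  cases m with
  | zero => exact (Hsm.map_bijective hb 3).1
  | succ m =>
    obtain ⟨hV1, R, hR, hcard⟩ := chain_card hP m (fun k => V (k + 1)) (fun k => ι (k + 1))
      (fun k => ψ (k + 1)) (fun k hk => hses (k + 1) (Nat.succ_lt_succ hk)) hb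
    have h0 := hses 0 (Nat.succ_pos m)
    have hV0 : Fin2 𝓝 (V 0) := step_fin h0 hP hV1
    have hstep := step_card (𝓝 := 𝓝) h0
    apply injective_of_card_range h0
    have hpos : 0 < od 𝓝 (V (0 + 1)) := hV1.od_pos
    have key : ev 𝓝 (V 0) * od 𝓝 P ^ (m + 1 + 1) *
        (Nat.card (Hsm.delta (𝓝 := 𝓝) h0 2).range * R) =
        ev 𝓝 (V 0) * od 𝓝 P ^ (m + 1 + 1) * 1 := by
      rw [mul_one]
      conv_rhs => rw [hχ]
      apply Nat.eq_of_mul_eq_mul_right hpos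
      calc ev 𝓝 (V 0) * od 𝓝 P ^ (m + 1 + 1) * (Nat.card (Hsm.delta (𝓝 := 𝓝) h0 2).range * R) *
            od 𝓝 (V (0 + 1))
          = (ev 𝓝 (V 0) * (od 𝓝 P * od 𝓝 (V (0 + 1))) *
              Nat.card (Hsm.delta (𝓝 := 𝓝) h0 2).range) * (od 𝓝 P ^ (m + 1) * R) := by ring
        _ = ev 𝓝 P * od 𝓝 (V 0) * (ev 𝓝 (V (0 + 1)) * od 𝓝 P ^ (m + 1) * R) := by
            rw [hstep]; ring
        _ = ev 𝓝 P ^ (m + 1 + 1) * od 𝓝 (V 0) * od 𝓝 (V (0 + 1)) := by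
            rw [hcard]; ring
    have hpos2 : 0 < ev 𝓝 (V 0) * od 𝓝 P ^ (m + 1 + 1) :=
      Nat.mul_pos hV0.ev_pos (pow_pos hP.od_pos _)
    have := Nat.eq_of_mul_eq_mul_left hpos2 key
    exact Nat.eq_one_of_mul_eq_one_right this

end chain

end Fermat.Agent.S55.Chi2
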