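/-
S55 / FORMAL-CHI2 (helper175) : the filtration of `Map(X', A)` by the powers of `D = σ^* - 1` for
a cyclic cover `X' → X` of prime degree `p` and a module `A` killed by `p`.
`(σ^* - 1)^(p-1) = 1 + σ^* + … + σ^*^(p-1) = res ∘ cor`, so `W k = im D^k` (`0 ≤ k ≤ p - 1`)
satisfies `0 → Map(X, A) → W k → W (k+1) → 0` and `W (p-1) = Map(X, A)`.
Export: `pull_injective_of_chi2`.
-/
import Fermat.Agent.S55.Formal.Chi2.Chain
import Fermat.Agent.S55.Coh.Cyclic

set_option autoImplicit false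

namespace Fermat.Agent.S55.Chi2

open Polynomial in
/-- `1 + X + … + X^(p-1) = (X - 1)^(p-1)` in characteristic `p`. -/
theorem geom_eq_pow (p : ℕ) [hp : Fact p.Prime] :
    (∑ i ∈ Finset.range p, (X : (ZMod p)[X]) ^ i) = (X - 1) ^ (p - 1) := by
  have h := cyclotomic_mul_prime_pow_eq (ZMod p) (p := p) (m := 1)
    (fun h => hp.out.one_lt.ne' (Nat.dvd_one.1 h)) (k := 1) one_pos
  rw [pow_one, mul_one, cyclotomic_prime, cyclotomic_one, Nat.sub_self, pow_zero] at h
  exact h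

open Polynomial in
/-- `(s - 1)^(p-1) = 1 + s + … + s^(p-1)` in a ring killed by `p`. -/
theorem ring_geom {R : Type} [Ring R] {p : ℕ} [Fact p.Prime] (h0 : (p : R) = 0) (s : R) :
    (s - 1) ^ (p - 1) = ∑ i ∈ Finset.range p, s ^ i := by
  have hd : (C (p : ℤ)) ∣ ((X - 1) ^ (p - 1) - ∑ i ∈ Finset.range p, X ^ i : ℤ[X]) := by
    rw [Polynomial.C_dvd_iff_dvd_coeff]
    intro i
    rw [← ZMod.intCast_zmod_eq_zero_iff_dvd]
    have h1 : ((X - 1) ^ (p - 1) - ∑ i ∈ Finset.range p, X ^ i : ℤ[X]).map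
        (Int.castRingHom (ZMod p)) = 0 := by
      simp [Polynomial.map_sum, geom_eq_pow p]
    have h2 := congrArg (fun q => q.coeff i) h1
    rw [Polynomial.coeff_map] at h2
    exact h2
  obtain ⟨q, hq⟩ := hd
  have h3 := congrArg (aeval s) hq
  simp only [map_sub, map_pow, aeval_X, map_one, map_sum, map_mul, aeval_C] at h3
  have h4 : (algebraMap ℤ R) (p : ℤ) = 0 := by simpa using h0
  rw [h4, zero_mul] at h3
  exact sub_eq_zero.1 h3

/-- `(s - 1)^(p-1) = 1 + s + … + s^(p-1)` for an endomorphism of a group killed by `p`. -/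
theorem end_geom {p : ℕ} [Fact p.Prime] {M : Type} [AddCommGroup M] (hM : ∀ m : M, p • m = 0)
    (s : AddMonoid.End M) : (s - 1) ^ (p - 1) = ∑ i ∈ Finset.range p, s ^ i := by
  refine ring_geom ?_ s
  ext m
  simpa using hM m

variable {G : Type} [Group G]
variable {X' X : Type} [MulAction G X'] [MulAction G X]
variable {u : X' →[G] X} {σ : X' →[G] X'} {p : ℕ}
variable (A : Type) [AddCommGroup A] [DistribMulAction G A]

/-- The powers of `D = σ^* - 1`. -/
def Dk (σ : X' →[G] X') : ℕ → (IndMod X' A →+[G] IndMod X' A)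
  | 0 => DistribMulActionHom.id G
  | k + 1 => (IndMod.sigmaSub A σ).comp (Dk σ k)

variable {A}

theorem Dk_zero_apply (f : IndMod X' A) : Dk A σ 0 f = f := rfl

theorem Dk_succ_apply (k : ℕ) (f : IndMod X' A) :
    Dk A σ (k + 1) f = IndMod.sigmaSub A σ (Dk A σ k f) := rfl

theorem Dk_add (i j : ℕ) (f : IndMod X' A) : Dk A σ (i + j) f = Dk A σ i (Dk A σ j f) := by
  induction i with
  | zero => rw [Nat.zero_add, Dk_zero_apply]
  | succ i ih => rw [Nat.succ_add, Dk_succ_apply, Dk_succ_apply, ih]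

/-- `D^(p-1) = res ∘ cor`. -/
theorem Dk_pred [Fact p.Prime] (hA : ∀ a : A, p • a = 0) (h : CyclicCover u σ p) [Finite X']
    (f : IndMod X' A) : Dk A σ (p - 1) f = IndMod.pull A u (IndMod.push A u f) := by
  have hM : ∀ g : IndMod X' A, p • g = 0 := fun g => by
    ext x
    rw [IndMod.nsmul_apply, hA, IndMod.zero_apply]
  obtain ⟨s, hs⟩ : ∃ s : AddMonoid.End (IndMod X' A), ∀ g, s g = IndMod.pull A σ g :=
    ⟨((IndMod.pull A σ : IndMod X' A →+[G] IndMod X' A) : IndMod X' A →+ IndMod X' A),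
      fun _ => rfl⟩
  have hmul : ∀ (a b : AddMonoid.End (IndMod X' A)) (g : IndMod X' A), (a * b) g = a (b g) :=
    fun _ _ _ => rfl
  have hsub : ∀ g : IndMod X' A, (s - 1) g = s g - g := fun _ => rfl
  have h1 : ∀ (k : ℕ) (g : IndMod X' A), ((s - 1) ^ k) g = Dk A σ k g := by
    intro k
    induction k with
    | zero => intro g; rfl
    | succ k ih =>
      intro g
      rw [pow_succ', hmul, ih, Dk_succ_apply, hsub, hs]
      rfl
  have h2 : ∀ (k : ℕ) (g : IndMod X' A) (x : X'), ((s ^ k) g) x = g (σ^[k] x) := by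
    intro k
    induction k with
    | zero => intro g x; rfl
    | succ k ih =>
      intro g x
      rw [pow_succ, hmul, ih, hs, IndMod.pull_apply,
        Function.iterate_succ_apply']
  have h3 : ∀ (n : ℕ) (g : IndMod X' A),
      (∑ i ∈ Finset.range n, s ^ i) g = ∑ i ∈ Finset.range n, (s ^ i) g := by
    intro n g
    induction n with
    | zero => rfl
    | succ n ih => rw [Finset.sum_range_succ, Finset.sum_range_succ, ← ih]; rfl
  ext x
  rw [← h1, end_geom hM, h.pull_push_apply, h3, IndMod.finset_sum_apply]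
  exact Finset.sum_congr rfl fun k _ => h2 k f x

/-- `W k = im D^k`. -/
def Wk (A : Type) [AddCommGroup A] [DistribMulAction G A] (σ : X' →[G] X') (k : ℕ) :
    GSub G (IndMod X' A) := GSub.range (Dk A σ k)

theorem pull_mem_Wk [Fact p.Prime] (hA : ∀ a : A, p • a = 0) (h : CyclicCover u σ p) [Finite X']
    {k : ℕ} (hk : k ≤ p - 1) (a : IndMod X A) :
    IndMod.pull A u a ∈ (Wk A σ k).toAddSubgroup := by
  obtain ⟨y, rfl⟩ := h.push_surjective a
  refine ⟨Dk A σ (p - 1 - k) y, ?_⟩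
  show Dk A σ k (Dk A σ (p - 1 - k) y) = _
  rw [← Dk_add, Nat.add_sub_cancel' hk, Dk_pred hA h]

open Classical in
/-- `Map(X, A) → W k` (zero for `k ≥ p`). -/
noncomputable def iotak [Fact p.Prime] (hA : ∀ a : A, p • a = 0) (h : CyclicCover u σ p)
    [Finite X'] (k : ℕ) : IndMod X A →+[G] (Wk A σ k).Mod :=
  if hk : k ≤ p - 1 then (Wk A σ k).codRestrict (IndMod.pull A u) (pull_mem_Wk hA h hk) else 0

theorem incl_iotak [Fact p.Prime] (hA : ∀ a : A, p • a = 0) (h : CyclicCover u σ p) [Finite X']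
    {k : ℕ} (hk : k ≤ p - 1) (a : IndMod X A) :
    (Wk A σ k).incl (iotak hA h k a) = IndMod.pull A u a := by
  unfold iotak
  rw [dif_pos hk]
  rfl

/-- `D : W k → W (k+1)`. -/
def psik (A : Type) [AddCommGroup A] [DistribMulAction G A] (σ : X' →[G] X') (k : ℕ) :
    (Wk A σ k).Mod →+[G] (Wk A σ (k + 1)).Mod :=
  (Wk A σ (k + 1)).codRestrict ((IndMod.sigmaSub A σ).comp (Wk A σ k).inclG) (fun w => by
    obtain ⟨g, hg⟩ := (Wk A σ k).incl_mem w
    exact ⟨g, congrArg (IndMod.sigmaSub A σ) hg⟩)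

theorem incl_psik (k : ℕ) (w : (Wk A σ k).Mod) :
    (Wk A σ (k + 1)).incl (psik A σ k w) = IndMod.sigmaSub A σ ((Wk A σ k).incl w) := rfl

theorem shortExact_k [Fact p.Prime] (hA : ∀ a : A, p • a = 0) (h : CyclicCover u σ p) [Finite X']
    {k : ℕ} (hk : k ≤ p - 1) : ShortExact (iotak hA h k) (psik A σ k) where
  inj a b hab := h.pull_injective (by rw [← incl_iotak hA h hk, hab, incl_iotak hA h hk])
  exact w := by
    constructor
    · intro hw
      have h0 : IndMod.sigmaSub A σ ((Wk A σ k).incl w) = 0 := by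
        rw [← incl_psik, hw]
        rfl
      obtain ⟨a, ha⟩ := h.exists_pull_eq h0
      exact ⟨a, (Wk A σ k).incl_injective (by rw [incl_iotak hA h hk, ha])⟩
    · rintro ⟨a, rfl⟩
      apply (Wk A σ (k + 1)).incl_injective
      rw [incl_psik, incl_iotak hA h hk, h.sigmaSub_pull]
      rfl
  surj w := by
    obtain ⟨g, hg⟩ := (Wk A σ (k + 1)).incl_mem w
    refine ⟨GSub.rangeRestrict (Dk A σ k) g, (Wk A σ (k + 1)).incl_injective ?_⟩
    rw [incl_psik]
    exact hg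

theorem iotak_bijective [Fact p.Prime] (hA : ∀ a : A, p • a = 0) (h : CyclicCover u σ p)
    [Finite X'] : Function.Bijective (iotak hA h (p - 1)) := by
  refine ⟨(shortExact_k hA h le_rfl).inj, fun w => ?_⟩
  obtain ⟨g, hg⟩ := (Wk A σ (p - 1)).incl_mem w
  refine ⟨IndMod.push A u g, (Wk A σ (p - 1)).incl_injective ?_⟩
  rw [incl_iotak hA h le_rfl, ← Dk_pred hA h]
  exact hg

theorem inclG_zero_bijective : Function.Bijective (Wk A σ 0).inclG :=
  ⟨(Wk A σ 0).inclG_injective, fun f => ⟨GSub.rangeRestrict (Dk A σ 0) f, rfl⟩⟩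

/-- LEMMA CHI2.  `X' → X` a cyclic cover of prime degree `p`, `A` killed by `p`, `H^i(A_X)` finite
for `i ≤ 2`.  If `χ₂(A_X') = p χ₂(A_X)` then `res : H³(A_X) → H³(A_X')` is injective. -/
theorem pull_injective_of_chi2 {𝓝 : LevelSys G} [hp : Fact p.Prime] (hA : ∀ a : A, p • a = 0)
    (h : CyclicCover u σ p) [Finite X'] [SmoothSet 𝓝 X'] [Smooth 𝓝 A]
    (hfin : Fin2 𝓝 (IndMod X A))
    (hχ : ev 𝓝 (IndMod X' A) * od 𝓝 (IndMod X A) ^ p =
      ev 𝓝 (IndMod X A) ^ p * od 𝓝 (IndMod X' A)) :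
    Function.Injective (Hsm.map (𝓝 := 𝓝) (IndMod.pull A u) 3) := by
  have hp1 : p - 1 + 1 = p := Nat.sub_add_cancel hp.out.one_le
  have key := chain_injective (𝓝 := 𝓝) hfin (p - 1) (fun k => (Wk A σ k).Mod) (iotak hA h)
    (psik A σ) (fun k hk => shortExact_k hA h hk.le) (iotak_bijective hA h) (by
      rw [hp1, ev_eq_of_bijective (𝓝 := 𝓝) (inclG_zero_bijective (A := A) (σ := σ)),
        od_eq_of_bijective (𝓝 := 𝓝) (inclG_zero_bijective (A := A) (σ := σ))]
      exact hχ)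
  intro x y hxy
  apply key
  apply (Hsm.map_bijective (𝓝 := 𝓝) (inclG_zero_bijective (A := A) (σ := σ)) 3).1
  have hc : ∀ a, IndMod.pull A u a = (Wk A σ 0).inclG (iotak hA h 0 a) := fun a =>
    (incl_iotak hA h (Nat.zero_le _) a).symm
  rw [← Hsm.map_comp' hc, ← Hsm.map_comp' hc, hxy]

/-- LEMMA CHI2 in the shape consumed by UNITS-T1 (`T1Ext.pull_injective_of_chi2`). -/
theorem pull_injective_of_chi2' {𝓝 : LevelSys G} {X' X : Type} [MulAction G X'] [MulAction G X]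
    [Finite X'] [Finite X] [SmoothSet 𝓝 X'] [SmoothSet 𝓝 X] {u : X' →[G] X} {σ : X' →[G] X'}
    {p : ℕ} (hp : p.Prime) (h : CyclicCover u σ p) (A : Type) [AddCommGroup A]
    [DistribMulAction G A] [Smooth 𝓝 A] (hA : ∀ a : A, p • a = 0)
    (hfin : ∀ i ≤ 2, Finite (Hsm 𝓝 (IndMod X A) i))
    (_hfin' : ∀ i ≤ 2, Finite (Hsm 𝓝 (IndMod X' A) i))
    (hchi : Nat.card (Hsm 𝓝 (IndMod X' A) 0) * Nat.card (Hsm 𝓝 (IndMod X' A) 2) *
        Nat.card (Hsm 𝓝 (IndMod X A) 1) ^ p =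
      Nat.card (Hsm 𝓝 (IndMod X' A) 1) *
        (Nat.card (Hsm 𝓝 (IndMod X A) 0) * Nat.card (Hsm 𝓝 (IndMod X A) 2)) ^ p) :
    Function.Injective (Hsm.map (𝓝 := 𝓝) (IndMod.pull A u) 3) := by
  have : Fact p.Prime := ⟨hp⟩
  refine pull_injective_of_chi2 hA h
    ⟨hfin 0 (by norm_num), hfin 1 (by norm_num), hfin 2 le_rfl⟩ ?_
  unfold ev od
  rw [hchi, Nat.mul_comm]

end Fermat.Agent.S55.Chi2
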