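/-
S55 / FORMAL-CHI2 (helper175) : LEMMA CHI2 + chain induction.
`A` killed by `p`; for the admissible open subgroups `U` the groups `H^i(A_{G/U})`, `i ≤ 2`, are
finite with `|H^1| = |H^0| |H^2| p^(e U)` and `e U' = p e U` for `U'` of index `p` in `U`.
Then `H^3(A_{G/U}) = 0` for every open subgroup `U`.
-/
import Fermat.Agent.S55.Formal.Chi2.Cover
import Fermat.Agent.S55.Coh.Chain
import Fermat.Agent.S55.Coh.Coset

set_option autoImplicit false

namespace Fermat.Agent.S55.Chi2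

variable {G : Type} [Group G] {𝓝 : LevelSys G} {A : Type} [AddCommGroup A] [DistribMulAction G A]

/-- classes with coefficients killed by `m` are killed by `m` -/
theorem nsmul_eq_zero_of_coeff (m : ℕ) (hA : ∀ a : A, m • a = 0) (n : ℕ) (x : Hsm 𝓝 A n) :
    m • x = 0 := by
  rw [← Hsm.map_nsmul' (χ := (0 : A →+[G] A)) m (fun a => (hA a).symm) n x]
  exact Hsm.map_zero' (fun _ => rfl) n x

/-- CHI2 + chain induction. -/
theorem eq_zero_of_chi2 [Smooth 𝓝 A] {p : ℕ} (hp : p.Prime) (hA : ∀ a : A, p • a = 0)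
    (P : Subgroup G → Prop)
    (hP : ∀ U, 𝓝.IsOpen U → ∃ U', 𝓝.IsOpen U' ∧ U' ≤ U ∧ P U' ∧ (U'.relIndex U).Coprime p)
    (hP' : ∀ U U', P U → 𝓝.IsOpen U' → U' ≤ U → P U')
    (e : Subgroup G → ℕ)
    (hfin : ∀ U, 𝓝.IsOpen U → P U → Fin2 𝓝 (IndMod (G ⧸ U) A))
    (hcount : ∀ U, 𝓝.IsOpen U → P U →
      od 𝓝 (IndMod (G ⧸ U) A) = ev 𝓝 (IndMod (G ⧸ U) A) * p ^ e U)
    (he : ∀ U U', U' ≤ U → 𝓝.IsOpen U' → P U → U'.relIndex U = p → e U' = p * e U)
    (U : Subgroup G) (hU : 𝓝.IsOpen U) (x : Hsm 𝓝 (IndMod (G ⧸ U) A) 3) : x = 0 := by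
  have : Fact p.Prime := ⟨hp⟩
  refine Hsm.eq_zero_of_chain (𝓝 := 𝓝) (A := A) hp 2 P hP hP' ?_ U hU x ?_
  · intro V V' hle hV' hPV hnorm hidx y _ hy
    have hVo : 𝓝.IsOpen V := hV'.mono hle
    have f2 : Finite (G ⧸ V') := by
      have := hV'.finiteIndex
      exact Subgroup.finite_quotient_of_finiteIndex
    have s2 : SmoothSet 𝓝 (G ⧸ V') := SmoothSet.quotient _ hV'
    obtain ⟨s, -, hs, hcov⟩ := exists_cyclicCover_coset_prime hp hle hnorm hidx
    have hinj := pull_injective_of_chi2 (𝓝 := 𝓝) hA hcov (hfin V hVo hPV) (by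
      rw [hcount V hVo hPV, hcount V' hV' (hP' V V' hPV hV' hle), he V V' hle hV' hPV hidx,
        mul_pow, ← pow_mul, Nat.mul_comm (e V) p]
      ring)
    exact hinj (by rw [hy, map_zero])
  · refine ⟨1, ?_⟩
    rw [pow_one]
    exact nsmul_eq_zero_of_coeff p (fun f => by ext z; exact hA (f z)) 3 x

end Fermat.Agent.S55.Chi2
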