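/-
S55 / FORMAL-CHI2 (helper175) : (T2) `H^3_q(μ_F) = 0` from the local package `LocPkg p q`.
Kummer theory + (L1), (L3), (L8) give `h^0 = p`, `h^1 = p^(2 + [q = p] n)`, `h^2 = p` for the
module `Map(Γ/V, μ_p)` (`V` open in `Γ = Gv q` acting trivially on `μ_p`, `n = [Γ : V]`);
CHI2 + chain induction give `H^3 = 0` for all coset spaces, hence for all finite smooth `Γ`-sets.
-/
import Fermat.Agent.S55.Formal.Chi2.Main
import Fermat.Agent.S55.Arith.LocInterface
import Fermat.Agent.S55.Units.T1.AbsCount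
import Fermat.Agent.S55.Units.T1.KummerCount
import Fermat.Agent.S55.Bridge.MuCoef
import Fermat.Agent.S55.Coh.IndProd

set_option autoImplicit false

namespace Fermat.Agent.S55.Chi2

section general

variable {G : Type} [Group G]

/-- The orbit map `G ⧸ Stab(y) → Y`. -/
def orbMap {Y : Type} [MulAction G Y] (y : Y) : (G ⧸ MulAction.stabilizer G y) →[G] Y where
  toFun := MulAction.ofQuotientStabilizer G y
  map_smul' g x := MulAction.ofQuotientStabilizer_smul G y g x

theorem isPartition_orbMap (Y : Type) [MulAction G Y] :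
    IsPartition (G := G)
      (fun ω : MulAction.orbitRel.Quotient G Y => G ⧸ MulAction.stabilizer G ω.out)
      (fun ω => orbMap ω.out) where
  inj ω := MulAction.injective_ofQuotientStabilizer G ω.out
  cover y := by
    have h1 : (Quotient.mk'' y : MulAction.orbitRel.Quotient G Y) =
        Quotient.mk'' (Quotient.mk'' y : MulAction.orbitRel.Quotient G Y).out :=
      (Quotient.out_eq' _).symm
    have h2 := Quotient.exact' h1
    obtain ⟨g, hg⟩ := (MulAction.orbitRel_apply.1 h2 :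
      y ∈ MulAction.orbit G (Quotient.mk'' y : MulAction.orbitRel.Quotient G Y).out)
    exact ⟨Quotient.mk'' y, (g : G ⧸ _), hg⟩
  disj i j x x' hxx' := by
    induction x using QuotientGroup.induction_on with
    | H g =>
      induction x' using QuotientGroup.induction_on with
      | H g' =>
        have h1 : g • i.out = g' • j.out := hxx'
        have h2 : i.out ∈ MulAction.orbit G j.out :=
          ⟨g⁻¹ * g', by
            show (g⁻¹ * g') • j.out = i.out
            rw [mul_smul, ← h1, inv_smul_smul]⟩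
        have h3 : (Quotient.mk'' i.out : MulAction.orbitRel.Quotient G Y) = Quotient.mk'' j.out :=
          Quotient.sound' (MulAction.orbitRel_apply.2 h2)
        rwa [Quotient.out_eq', Quotient.out_eq'] at h3

/-- Vanishing for all coset spaces implies vanishing for all finite smooth `G`-sets. -/
theorem eq_zero_of_coset {𝓝 : LevelSys G} {A : Type} [AddCommGroup A] [DistribMulAction G A]
    (n : ℕ) (h : ∀ U, 𝓝.IsOpen U → ∀ x : Hsm 𝓝 (IndMod (G ⧸ U) A) n, x = 0)
    (Y : Type) [MulAction G Y] [Finite Y] [SmoothSet 𝓝 Y] (x : Hsm 𝓝 (IndMod Y A) n) : x = 0 := by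
  have : Finite (MulAction.orbitRel.Quotient G Y) := Quotient.finite _
  exact (isPartition_orbMap (G := G) Y).hsm_ext n x fun ω =>
    h _ (SmoothSet.isOpen_stabilizer 𝓝 ω.out) _

theorem torsCard_of_subsingleton (p : ℕ) (M : Type) [AddCommGroup M] [Subsingleton M] :
    torsCard p M = 1 := by
  unfold torsCard
  exact Nat.card_unique

theorem modCard_of_subsingleton (p : ℕ) (M : Type) [AddCommGroup M] [Subsingleton M] :
    modCard p M = 1 := by
  unfold modCard
  rw [AddSubgroup.index_eq_one]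
  exact Subsingleton.elim _ _

/-- An additive map which is bijective on `p`-primary parts preserves `|M[p]|`. -/
theorem torsCard_eq_of_pPrimary {p : ℕ} {M N : Type} [AddCommGroup M] [AddCommGroup N]
    (f : M →+ N) (hinj : ∀ y ∈ pPrimary p M, f y = 0 → y = 0)
    (hsurj : ∀ c ∈ pPrimary p N, ∃ y ∈ pPrimary p M, f y = c) : torsCard p M = torsCard p N := by
  have hmem : ∀ (K : Type) [AddCommGroup K] (x : K), p • x = 0 → x ∈ pPrimary p K :=
    fun K _ x hx => ⟨1, by rw [pow_one]; exact hx⟩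
  unfold torsCard
  refine Nat.card_congr (Equiv.ofBijective
    (fun y : (nsmulAddMonoidHom (α := M) p).ker =>
      (⟨f y.1, by
        have h1 : p • y.1 = 0 := y.2
        show p • f y.1 = 0
        rw [← map_nsmul, h1, map_zero]⟩ : (nsmulAddMonoidHom (α := N) p).ker)) ⟨?_, ?_⟩)
  · intro y y' hyy
    have h1 : f y.1 = f y'.1 := congrArg Subtype.val hyy
    have h2 : p • y.1 = 0 := y.2
    have h3 : p • y'.1 = 0 := y'.2
    have h4 : y.1 - y'.1 = 0 := hinj _ (hmem M _ (by rw [smul_sub, h2, h3, sub_zero]))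
      (by rw [map_sub, h1, sub_self])
    exact Subtype.ext (sub_eq_zero.1 h4)
  · intro c
    have hc : p • c.1 = 0 := c.2
    obtain ⟨y, hy, hyc⟩ := hsurj c.1 (hmem N _ hc)
    have h1 : p • y = 0 := hinj _ ((pPrimary p M).nsmul_mem hy p) (by rw [map_nsmul, hyc, hc])
    exact ⟨⟨y, h1⟩, Subtype.ext hyc⟩

end general

section loc

/-- multiplication by `m` on `ℚ̄ˣ` -/
noncomputable def mulKx (m : ℕ) : Kx →+[GQ] Kx where
  toFun b := m • b
  map_smul' g b := (smul_comm g m b).symm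
  map_zero' := smul_zero m
  map_add' a b := smul_add m a b

/-- the Kummer sequence `0 → μ_m → ℚ̄ˣ → ℚ̄ˣ → 0` -/
theorem kummerKx (m : ℕ) (hm : 0 < m) : ShortExact (muSub m).inclG (mulKx m) where
  inj := (muSub m).incl_injective
  exact := by
    intro b
    constructor
    · intro h
      exact ⟨(muSub m).mkMod b h, rfl⟩
    · rintro ⟨a, rfl⟩
      exact (muSub m).incl_mem a
  surj := by
    intro c
    obtain ⟨y, hy⟩ := IsAlgClosed.exists_pow_nat_eq c.val hm
    have hc0 : c.val ≠ 0 := (Additive.toMul c : Qbˣ).ne_zero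
    have hy0 : y ≠ 0 := by
      intro h
      rw [h, zero_pow hm.ne'] at hy
      exact hc0 hy.symm
    refine ⟨Additive.ofMul (Units.mk0 y hy0), ?_⟩
    apply Additive.toMul.injective
    apply Units.ext
    show ((Units.mk0 y hy0 ^ m : Qbˣ) : Qb) = c.val
    rw [Units.val_pow_eq_pow_val, Units.val_mk0, hy]

variable {p : ℕ} [Fact p.Prime] {q : Nat.Primes}

/-- The three counts. -/
theorem card_local (L : LocPkg p q) (V : Subgroup (Gv q)) (hV : (lvlLoc q).IsOpen V)
    (hVμ : ∀ τ ∈ V, ∀ ζ : Mu p, ιv q τ • ζ = ζ) :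
    Nat.card (Hsm (lvlLoc q) (IndMod (Gv q ⧸ V) (ResMod (ιv q) (Mu p))) 0) = p ∧
    Nat.card (Hsm (lvlLoc q) (IndMod (Gv q ⧸ V) (ResMod (ιv q) (Mu p))) 1) =
      p ^ (2 + if (q : ℕ) = p then Nat.card (Gv q ⧸ V) else 0) ∧
    Nat.card (Hsm (lvlLoc q) (IndMod (Gv q ⧸ V) (ResMod (ιv q) (Mu p))) 2) = p := by
  have hp : p.Prime := Fact.out
  have f1 : Finite (Gv q ⧸ V) := by
    have := hV.finiteIndex
    exact Subgroup.finite_quotient_of_finiteIndex
  have s1 : SmoothSet (lvlLoc q) (Gv q ⧸ V) := SmoothSet.quotient _ hV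
  have hK := IndMod.shortExact_mapCoeff (Gv q ⧸ V)
    (ResMod.shortExact_map (ιv q) (kummerKx p hp.pos))
  have hψ : ∀ b, IndMod.mapCoeff (Gv q ⧸ V) (ResMod.map (ιv q) (mulKx p)) b = p • b :=
    fun b => rfl
  have c1 := Hsm.card_succ_of_kummer (𝓝 := lvlLoc q) hK p hψ 0
  have c2 := Hsm.card_succ_of_kummer (𝓝 := lvlLoc q) hK p hψ 1
  have hsub : Subsingleton (HKY q (Gv q ⧸ V) 1) :=
    ⟨fun a b => by rw [L.L1 _ a, L.L1 _ b]⟩
  have h8 := L.L8 (Gv q ⧸ V) ((1 : Gv q) : Gv q ⧸ V) (fun τ hτ => hVμ τ (by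
    rw [MulAction.Quotient.smul_coe, smul_eq_mul, mul_one, eq_comm, QuotientGroup.eq, inv_one,
      one_mul] at hτ
    exact hτ))
  have h3 : torsCard p (HKY q (Gv q ⧸ V) 2) = p := by
    rw [torsCard_eq_of_pPrimary (invY q (Gv q ⧸ V) L.inv) (L.L3inj _) (L.L3surj _),
      torsCard_QZ p hp.pos]
  refine ⟨?_, ?_, ?_⟩
  · rw [Hsm.card_zero_coset V (ResMod (ιv q) (Mu p)) (fun τ hτ a => hVμ τ hτ a)]
    exact Bridge.cardMu p
  · rw [c1, torsCard_of_subsingleton, mul_one]
    exact h8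
  · rw [c2, modCard_of_subsingleton, one_mul]
    exact h3

/-- Every open subgroup of `Gv q` contains an open subgroup of index prime to `p` acting
trivially on `μ_p`. -/
theorem exists_local_coprime (U : Subgroup (Gv q)) (hU : (lvlLoc q).IsOpen U) :
    ∃ U', (lvlLoc q).IsOpen U' ∧ U' ≤ U ∧ (∀ τ ∈ U', ∀ ζ : Mu p, ιv q τ • ζ = ζ) ∧
      (U'.relIndex U).Coprime p := by
  have hp : p.Prime := Fact.out
  have : Fact (1 < p) := ⟨hp.one_lt⟩
  obtain ⟨ζ, -, hgen, -, hχ⟩ := Bridge.exists_generator_Mu p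
  obtain ⟨F, hF, hn, hfix⟩ := Bridge.exists_level_of_cycloChar (p := p) {ExtCitation.pPrime p}
    (Finset.mem_singleton_self _)
  set K : Subgroup (Gv q) := ((ExtCitation.cycloChar p).comp (ιv q)).ker with hK
  have hKopen : (lvlLoc q).IsOpen K :=
    ⟨_, ⟨_, ⟨F, hF.1, Bridge.isStableField_of_normal F hn, rfl⟩, rfl⟩, fun s hs =>
      MonoidHom.mem_ker.2 (hfix _ hs)⟩
  refine ⟨U ⊓ K, hU.inf hKopen, inf_le_left, ?_, ?_⟩
  · intro u hu a
    obtain ⟨k, rfl⟩ := hgen a
    have h0 : ExtCitation.cycloChar p (ιv q u) = 1 := MonoidHom.mem_ker.1 hu.2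
    have h1 : ιv q u • ζ = ζ := by
      rw [hχ (ιv q u), h0]
      simp [ZMod.val_one]
    rw [smul_comm, h1]
  · have h1 : (U ⊓ K).relIndex U = K.relIndex U := Subgroup.inf_relIndex_left U K
    have h2 : K.relIndex U ∣ K.index := Subgroup.relIndex_dvd_index_of_normal K U
    have h3 : K.index ∣ p - 1 := by
      rw [hK, Subgroup.index_ker, ← ZMod.card_units p, ← Nat.card_eq_fintype_card]
      exact Subgroup.card_subgroup_dvd_card _
    rw [h1]
    refine Nat.Coprime.coprime_dvd_left (h2.trans h3) ?_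
    have h4 := hp.two_le
    exact ((Nat.Prime.coprime_iff_not_dvd hp).2
      (Nat.not_dvd_of_pos_of_lt (by omega) (by omega))).symm

/-- `H^3(Γ, Map(Γ/U, μ_p)) = 0` for every open subgroup `U` of `Γ = Gv q`. -/
theorem local_coset_eq_zero (L : LocPkg p q) (U : Subgroup (Gv q)) (hU : (lvlLoc q).IsOpen U)
    (x : Hsm (lvlLoc q) (IndMod (Gv q ⧸ U) (ResMod (ιv q) (Mu p))) 3) : x = 0 := by
  have hp : p.Prime := Fact.out
  refine eq_zero_of_chi2 (𝓝 := lvlLoc q) (A := ResMod (ιv q) (Mu p)) hp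
    (fun a => (muSub p).incl_injective ((muSub p).incl_mem a))
    (fun V => ∀ τ ∈ V, ∀ ζ : Mu p, ιv q τ • ζ = ζ) exists_local_coprime
    (fun V V' hV _ hle τ hτ ζ => hV τ (hle hτ) ζ)
    (fun V => if (q : ℕ) = p then Nat.card (Gv q ⧸ V) else 0) ?_ ?_ ?_ U hU x
  · intro V hV hVμ
    obtain ⟨a0, a1, a2⟩ := card_local L V hV hVμ
    exact ⟨Nat.finite_of_card_ne_zero (by rw [a0]; exact hp.ne_zero),
      Nat.finite_of_card_ne_zero (by rw [a1]; exact pow_ne_zero _ hp.ne_zero),
      Nat.finite_of_card_ne_zero (by rw [a2]; exact hp.ne_zero)⟩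
  · intro V hV hVμ
    obtain ⟨a0, a1, a2⟩ := card_local L V hV hVμ
    unfold od ev
    rw [a0, a1, a2, pow_add]
    ring
  · intro V V' hle _ _ hidx
    split_ifs
    · have h1 : V'.index = V'.relIndex V * V.index := (Subgroup.relIndex_mul_index hle).symm
      rw [hidx] at h1
      exact h1
    · rw [Nat.mul_zero]

/-- (T2) for an arbitrary finite smooth `GQ`-set. -/
theorem T2_set (L : LocPkg p q) (X : Type) [MulAction GQ X] [Finite X] [SmoothSet lvlAll X]
    (x : Hloc q (IndMod X (Mu p)) 3) : x = 0 := by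
  have h0 := eq_zero_of_coset (𝓝 := lvlLoc q) (A := ResMod (ιv q) (Mu p)) 3
    (local_coset_eq_zero L) (ResSet (ιv q) X)
    (Hsm.map (IndMod.toResSet (ιv q) X (Mu p)) 3 x)
  have h1 := congrArg (Hsm.map (𝓝 := lvlLoc q) (IndMod.ofResSet (ιv q) X (Mu p)) 3) h0
  rw [map_zero, ← Hsm.map_comp] at h1
  rw [← h1]
  exact (Hsm.map_id' (fun f => IndMod.ofResSet_toResSet (ιv q) X (Mu p) f) 3 x).symm

/-- (T2), verbatim the field `T2` of `ArithInput`. -/
theorem T2 (S : Finset Nat.Primes) (L : ∀ q, LocPkg p q) :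
    ∀ U : Subgroup GQ, (lvlS S).IsOpen U → ActsTrivially U (Mu p) → ∀ q ∈ S,
      ∀ x : Hloc q (IndMod (GQ ⧸ U) (Mu p)) 3, x = 0 := by
  intro U hU _ q _ x
  have f1 : Finite (GQ ⧸ U) := by
    have := hU.finiteIndex
    exact Subgroup.finite_quotient_of_finiteIndex
  have : SmoothSet lvlAll (GQ ⧸ U) := by
    obtain ⟨N, hN, hle⟩ := hU
    obtain ⟨N', hN', hle'⟩ := lvlS_le_lvlAll S N hN
    exact SmoothSet.quotient _ ⟨N', hN', hle'.trans hle⟩
  exact T2_set (L q) (GQ ⧸ U) x

end loc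

end Fermat.Agent.S55.Chi2
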